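import Fermat.Agent.Mazur.Eisenstein.Unit
import Fermat.Agent.Igusa.CuspReduction
import Fermat.Agent.Mazur.Moduli.Place
import Fermat.Prelude.Def_ModularCurve_ReductionModL

/-!
# The cusp to which a place reduces

Only the axioms of `IsPlaceReductionAlong` are used, for functions reducing to constants.
-/

noncomputable section

open ModularCurve AlgebraicCurve

namespace Fermat.Agent.Mazur.Moduli

local notation "ℚbar" => AlgebraicClosure ℚ

-- The algebra structures of the two function fields are found much faster this way.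
attribute [local instance 2000] SubalgebraClass.toAlgebra
attribute [-instance] IsLocalRing.ResidueField.algebraOfIsIntegral

variable {p : ℕ} [hp : Fact p.Prime] {A : ValuationSubring ℚbar}
  {r : Place ℚbar (modularFunctionFieldBar p) →
    Place (IsLocalRing.ResidueField A) (modularFunctionFieldFullC (IsLocalRing.ResidueField A) p)}

/-- The integral series of `Δ(τ)/Δ(pτ)`. -/
def unitZ (p : ℕ) [NeZero p] : LaurentSeries ℤ :=
  qExpand ℤ p (Igusa.deltaInvSer ℤ) * Igusa.deltaSer ℤ

/-- The integral series of `Δ(pτ)/Δ(τ)`. -/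
def unitInvZ (p : ℕ) [NeZero p] : LaurentSeries ℤ :=
  qExpand ℤ p (Igusa.deltaSer ℤ) * Igusa.deltaInvSer ℤ

theorem unitZ_mul_inv (p : ℕ) [NeZero p] : unitZ p * unitInvZ p = 1 := by
  rw [unitZ, unitInvZ, mul_mul_mul_comm, ← map_mul, mul_comm (Igusa.deltaInvSer ℤ),
    Igusa.deltaSer_mul_inv, map_one, one_mul]

theorem unitBar_eq_wBar : unitBar p = Eisenstein.wBar p :=
  Subtype.ext (by rw [coe_unitBar, Eisenstein.coe_wBar])

theorem coe_unitBar_int :
    (unitBar p : LaurentSeries ℚbar) = coeffMap (Int.castRingHom ℚbar) (unitZ p) := by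
  rw [coe_unitBar, Eisenstein.modularUnit_coeffEmb, unitZ, map_mul, coeffMap_qExpand,
    Igusa.coeffMap_deltaSer, Igusa.coeffMap_deltaInvSer]

theorem inv_unitBar_coe :
    ((unitBar p)⁻¹ : modularFunctionFieldBar p).1
      = coeffMap (Int.castRingHom ℚbar) (unitInvZ p) := by
  show ((unitBar p : LaurentSeries ℚbar))⁻¹ = _
  refine inv_eq_of_mul_eq_one_right ?_
  rw [coe_unitBar_int, ← map_mul, unitZ_mul_inv, map_one]

theorem unitBar_ne_zero : unitBar p ≠ 0 := unitBar_eq_wBar (p := p) ▸ Eisenstein.wBar_ne_zero p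

omit hp in
theorem coeffMap_C {R S : Type*} [CommRing R] [CommRing S] (f : R →+* S) (c : R) :
    coeffMap f (HahnSeries.C c) = HahnSeries.C (f c) :=
  coeffMap_single f 0 c

omit hp in
/-- A function reducing to a nonzero constant has divisor killed by `r`. -/
theorem mapDomain_div_eq_zero [NeZero p] (hr : IsPlaceReductionModL A p r) (y : LaurentSeries A)
    {f : modularFunctionFieldBar p} (hf : (f : LaurentSeries ℚbar) = coeffMap A.subtype y)
    {c : IsLocalRing.ResidueField A} (hc : c ≠ 0)
    (hy : coeffMap (IsLocalRing.residue A) y = HahnSeries.C c) :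
    Finsupp.mapDomain r (FF.div ℚbar f) = 0 := by
  have e : (HahnSeries.C c : LaurentSeries (IsLocalRing.ResidueField A))
      = algebraMap _ _ c := (algebraMap_laurentSeries_eq_single _ c).symm
  have hyk : coeffMap (IsLocalRing.residue A) y
      ∈ modularFunctionFieldFullC (IsLocalRing.ResidueField A) p := by
    rw [hy, e]; exact IntermediateField.algebraMap_mem _ _
  have hne : coeffMap (IsLocalRing.residue A) y ≠ 0 := by
    rw [hy, e]; exact (map_ne_zero _).mpr hc
  have h := hr.2 y (hf ▸ f.2) hyk hne (FF.div ℚbar f) fun P => by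
    rw [FF.div_apply]; congr 1; exact Subtype.ext hf
  refine Finsupp.ext fun Q => ?_
  rw [h Q, Finsupp.zero_apply,
    show (⟨_, hyk⟩ : modularFunctionFieldFullC (IsLocalRing.ResidueField A) p)
      = algebraMap _ _ c from Subtype.ext (hy.trans e)]
  exact JacTorsion.ord_algebraMap Q c

omit hp in
/-- If `r` kills the divisor of `f`, a zero of `f` goes to the common image of its poles. -/
theorem image_zero_mem [NeZero p] {f : modularFunctionFieldBar p}
    (h : Finsupp.mapDomain r (FF.div ℚbar f) = 0)
    {x : Place ℚbar (modularFunctionFieldBar p)} (hx : 0 < x.ord f) :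
    ∃ v, v.ord f < 0 ∧ r v = r x := by
  classical
  by_contra hcon
  simp only [not_exists, not_and] at hcon
  have h' := DFunLike.congr_fun h (r x)
  rw [Finsupp.mapDomain, Finsupp.sum_apply, Finsupp.zero_apply] at h'
  refine absurd h' (ne_of_gt (Finset.sum_pos' (fun v _ => ?_) ⟨x, ?_, ?_⟩))
  · simp only [Finsupp.single_apply]
    split_ifs with hv
    · rw [FF.div_apply]
      exact not_lt.mp fun hlt => hcon v hlt hv
    · exact le_rfl
  · rw [Finsupp.mem_support_iff, FF.div_apply]; exact hx.ne'
  · simp only [Finsupp.single_eq_same, FF.div_apply]; exact hx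

theorem eq_placeInf_of_pole_sub {v : Place ℚbar (modularFunctionFieldBar p)} {b : ℚbar}
    (hv : v.ord (unitBar p - algebraMap _ _ b) < 0) : v = Eisenstein.placeInf p := by
  have hmem : ¬ 0 ≤ v.ord (unitBar p) := fun h => by
    have := JacTorsion.mem_of_ord_nonneg v h
    have h1 := sub_mem this (v.algebraMap_mem' b)
    have := JacTorsion.ord_nonneg_of_mem v h1
    omega
  rw [unitBar_eq_wBar] at hmem
  have hj : v.ord (Genus.jB p) < 0 :=
    not_le.mp fun h => hmem (Eisenstein.ord_wBar_eq_zero p h).ge
  rcases Eisenstein.eq_of_ord_jB_neg p hj with h | h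
  · exact h
  exfalso
  subst h
  have h1 := DFunLike.congr_fun (Eisenstein.div_wBar p) (Eisenstein.placeZero p)
  rw [FF.div_apply, Eisenstein.cuspDiv, Finsupp.smul_apply, Finsupp.sub_apply,
    Finsupp.single_eq_same, Finsupp.single_eq_of_ne (Eisenstein.placeZero_ne_placeInf p),
    sub_zero, smul_eq_mul, mul_one] at h1
  have := hp.out.one_lt
  rw [h1] at hmem
  omega

variable {x : Place ℚbar (modularFunctionFieldBar p)} {b : ℚbar}

/-- A value of the unit that is large at `A` is taken only at places reducing to `∞`. -/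
theorem reduction_eq_placeInf (hr : IsPlaceReductionModL A p r) (hb : 1 < A.valuation b)
    (hx : 0 < x.ord (unitBar p - algebraMap _ _ b)) : r x = r (Eisenstein.placeInf p) := by
  have hb0 : b ≠ 0 := by rintro rfl; simp at hb
  have hbi : A.valuation b⁻¹ < 1 := by rw [map_inv₀]; exact inv_lt_one_of_one_lt₀ hb
  set β : A := ⟨b⁻¹, (A.valuation_le_one_iff _).mp hbi.le⟩
  set f : modularFunctionFieldBar p := algebraMap _ _ b⁻¹ * unitBar p - 1
  have hf : (f : LaurentSeries ℚbar) = coeffMap A.subtype
      (HahnSeries.C β * coeffMap (Int.castRingHom A) (unitZ p) - 1) := by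
    simp only [map_sub, map_mul, map_one, coeffMap_C, coeffMap_coeffMap, RingHom.ext_int
      (A.subtype.comp (Int.castRingHom A)) (Int.castRingHom ℚbar), ← coe_unitBar_int]
    show algebraMap ℚbar (LaurentSeries ℚbar) b⁻¹ * (unitBar p : LaurentSeries ℚbar) - 1 = _
    rw [algebraMap_laurentSeries_eq_single]
    rfl
  have h0 := mapDomain_div_eq_zero hr _ hf (c := -1) (by simp) (by
    have hβ : IsLocalRing.residue A β = 0 :=
      (IsLocalRing.residue_eq_zero_iff _).mpr ((ValuationSubring.valuation_lt_one_iff _ _).mpr hbi)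
    simp only [map_sub, map_mul, map_one, coeffMap_C, hβ, map_zero, zero_mul, zero_sub,
      map_neg])
  have hne : unitBar p - algebraMap _ _ b ≠ 0 := fun h => by
    rw [h, Place.ord_zero] at hx; exact lt_irrefl _ hx
  have hfb : f = algebraMap _ _ b⁻¹ * (unitBar p - algebraMap _ _ b) := by
    rw [mul_sub, ← map_mul, inv_mul_cancel₀ hb0, map_one]
  have hord : ∀ v : Place ℚbar (modularFunctionFieldBar p),
      v.ord f = v.ord (unitBar p - algebraMap _ _ b) := fun v => by
    rw [hfb, v.ord_mul ((map_ne_zero _).mpr (inv_ne_zero hb0)) hne, JacTorsion.ord_algebraMap,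
      zero_add]
  obtain ⟨v, hv, hvx⟩ := image_zero_mem h0 (x := x) (by rwa [hord])
  rw [hord] at hv
  rw [← hvx, eq_placeInf_of_pole_sub hv]

theorem eq_placeZero_of_ord_pos {v : Place ℚbar (modularFunctionFieldBar p)}
    (hv : 0 < v.ord (unitBar p)) : v = Eisenstein.placeZero p := by
  rw [unitBar_eq_wBar] at hv
  have hj : v.ord (Genus.jB p) < 0 :=
    not_le.mp fun h => hv.ne' (Eisenstein.ord_wBar_eq_zero p h)
  rcases Eisenstein.eq_of_ord_jB_neg p hj with h | h
  · rw [h, Eisenstein.ord_placeInf_wBar] at hv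
    have := hp.out.one_lt
    omega
  · exact h

/-- A value of the unit that is small at `A` is taken only at places reducing to `0`. -/
theorem reduction_eq_placeZero (hr : IsPlaceReductionModL A p r) (hb : A.valuation b < 1)
    (hx : 0 < x.ord (unitBar p - algebraMap _ _ b)) : r x = r (Eisenstein.placeZero p) := by
  by_cases hxw : 0 < x.ord (unitBar p)
  · rw [eq_placeZero_of_ord_pos hxw]
  set β : A := ⟨b, (A.valuation_le_one_iff _).mp hb.le⟩
  set f : modularFunctionFieldBar p := 1 - algebraMap _ _ b * (unitBar p)⁻¹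
  have hf : (f : LaurentSeries ℚbar) = coeffMap A.subtype
      (1 - HahnSeries.C β * coeffMap (Int.castRingHom A) (unitInvZ p)) := by
    simp only [map_sub, map_mul, map_one, coeffMap_C, coeffMap_coeffMap, RingHom.ext_int
      (A.subtype.comp (Int.castRingHom A)) (Int.castRingHom ℚbar), ← inv_unitBar_coe]
    show 1 - algebraMap ℚbar (LaurentSeries ℚbar) b
      * ((unitBar p)⁻¹ : modularFunctionFieldBar p).1 = _
    rw [algebraMap_laurentSeries_eq_single]
    rfl
  have h0 := mapDomain_div_eq_zero hr _ hf (c := 1) one_ne_zero (by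
    have hβ : IsLocalRing.residue A β = 0 :=
      (IsLocalRing.residue_eq_zero_iff _).mpr ((ValuationSubring.valuation_lt_one_iff _ _).mpr hb)
    simp only [map_sub, map_mul, map_one, coeffMap_C, hβ, map_zero, zero_mul, sub_zero])
  have hne : unitBar p - algebraMap _ _ b ≠ 0 := fun h => by
    rw [h, Place.ord_zero] at hx; exact lt_irrefl _ hx
  have hw := unitBar_ne_zero (p := p)
  have hfb : f = (unitBar p - algebraMap _ _ b) * (unitBar p)⁻¹ := by
    rw [sub_mul, mul_inv_cancel₀ hw]
  obtain ⟨v, hv, hvx⟩ := image_zero_mem h0 (x := x) (by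
    rw [hfb, x.ord_mul hne (inv_ne_zero hw), x.ord_inv]; omega)
  have hvw : 0 < v.ord (unitBar p) := by
    by_contra hle
    have h1 : (unitBar p)⁻¹ ∈ v.toValuationSubring :=
      JacTorsion.mem_of_ord_nonneg v (by rw [v.ord_inv]; omega)
    have h2 : f ∈ v.toValuationSubring :=
      sub_mem (one_mem _) (mul_mem (v.algebraMap_mem' b) h1)
    have := JacTorsion.ord_nonneg_of_mem v h2
    omega
  rw [← hvx, eq_placeZero_of_ord_pos hvw]

end Fermat.Agent.Mazur.Moduli
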