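import Fermat.Agent.Mazur.Moduli.Unit
import Fermat.Agent.Genus.JFunction
import Fermat.Agent.ModFun.Stab

/-!
# Uniformisation adapted to a point of order `p`

For an elliptic curve over `ℂ` with a point `T` of order `p` there is `τ` such that the curve is
uniformised by `ℤτ + ℤ` with `T` the image of `1/p`; then `j = j(τ)` and the modular unit
`Δ(τ)/Δ(pτ)` is `p¹² ∏ η(kT)⁴ / Δ^{p-1}`.
-/

noncomputable section

open UpperHalfPlane hiding I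
open Complex Finset
open scoped PeriodPair Real MatrixGroups

namespace Fermat.Agent.Mazur.Moduli

open Fermat.Agent.Wp Fermat.Agent.ModFun Fermat.Agent.Igusa

/-- `p¹² ∏_{k=1}^{p-1} η(kT)⁴ / Δ^{p-1}`. -/
def unitValue {K : Type*} [Field K] [DecidableEq K] {W : WeierstrassCurve K} (p : ℕ)
    (T : W.toAffine.Point) : K :=
  (p : K) ^ 12 * (∏ k ∈ Ico 1 p, Wp.eta (k • T) ^ 4) / W.Δ ^ (p - 1)

variable {W : WeierstrassCurve ℂ}

theorem Δ_eq {τ : ℍ} (D : Datum W (pairTau τ)) :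
    W.Δ = (2 * π * D.s) ^ 12 * ModularForm.discriminant τ := by
  have h := W.c_relation
  rw [D.c₄_eq, D.c₆_eq, g₂_pairTau, g₃_pairTau] at h
  rw [ModularForm.discriminant_eq_E₄_cube_sub_E₆_sq]
  linear_combination h / 1728

theorem jH_eq {τ : ℍ} (D : Datum W (pairTau τ)) (hΔ : W.Δ ≠ 0) :
    W.c₄ ^ 3 / W.Δ = ModFun.jH τ := by
  rw [Δ_eq D] at hΔ ⊢
  have hs : (2 * π * D.s) ^ 12 ≠ 0 := left_ne_zero_of_mul hΔ
  rw [ModFun.jH, D.c₄_eq, g₂_pairTau]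
  rw [div_eq_div_iff hΔ (ModularForm.discriminant_ne_zero τ)]
  ring

/-- Change of basis of the lattice. -/
def scaleDatum {τ : ℍ} (D : Datum W (pairTau τ)) (g : SL(2, ℤ)) : Datum W (pairTau (g • τ)) :=
  have hμ : ((g 1 0 : ℂ) * τ + g 1 1) ≠ 0 := Wp.denom_eq g τ ▸ denom_ne_zero _ τ
  { s := D.s / ((g 1 0 : ℂ) * τ + g 1 1)
    s_ne := div_ne_zero D.s_ne hμ
    c₄_eq := by
      rw [D.c₄_eq, PeriodPair.g₂, PeriodPair.g₂, G_scale hμ (mem_pairTau_smul g τ) 4]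
      field_simp
    c₆_eq := by
      rw [D.c₆_eq, PeriodPair.g₃, PeriodPair.g₃, G_scale hμ (mem_pairTau_smul g τ) 6]
      field_simp }

theorem scaleDatum_hom [DecidableEq ℂ] {τ : ℍ} (D : Datum W (pairTau τ)) (g : SL(2, ℤ)) (z : ℂ) :
    (scaleDatum D g).hom z = D.hom (((g 1 0 : ℂ) * τ + g 1 1) * z) := by
  have hμ : ((g 1 0 : ℂ) * τ + g 1 1) ≠ 0 := Wp.denom_eq g τ ▸ denom_ne_zero _ τ
  rw [Datum.hom_apply, Datum.hom_apply]
  by_cases hz : z ∈ (pairTau (g • τ)).lattice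
  · rw [Datum.point_of_mem _ hz, Datum.point_of_mem _ ((mem_pairTau_smul g τ z).mp hz)]
  have hz' : ((g 1 0 : ℂ) * τ + g 1 1) * z ∉ (pairTau τ).lattice :=
    fun h => hz ((mem_pairTau_smul g τ z).mpr h)
  rw [Datum.point_of_notMem _ hz, Datum.point_of_notMem _ hz']
  have hx : (scaleDatum D g).xval z = D.xval (((g 1 0 : ℂ) * τ + g 1 1) * z) := by
    simp only [Datum.xval, scaleDatum, weierstrassP_mul hμ (mem_pairTau_smul g τ), div_pow]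
    ring
  simp only [WeierstrassCurve.Affine.Point.some.injEq, Datum.yval, hx, true_and]
  simp only [scaleDatum, derivWeierstrassP_mul hμ (mem_pairTau_smul g τ), div_pow]
  ring

theorem exists_datum (hΔ : W.Δ ≠ 0) : ∃ τ, Nonempty (Datum W (pairTau τ)) := by
  obtain ⟨τ, hτ⟩ := Genus.jH_surjective (W.c₄ ^ 3 / W.Δ)
  rw [ModFun.genusJ_eq, ModFun.jH] at hτ
  have hd := ModularForm.discriminant_ne_zero τ
  obtain ⟨u, hu⟩ := IsAlgClosed.exists_pow_nat_eq (W.Δ / ModularForm.discriminant τ)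
    (show 0 < 12 by norm_num)
  have hΔu : W.Δ = u ^ 12 * ModularForm.discriminant τ := by rw [hu, div_mul_cancel₀ _ hd]
  have hu0 : u ≠ 0 := by rintro rfl; simp [hΔ] at hΔu
  rw [div_eq_div_iff hd hΔ] at hτ
  have h4 : W.c₄ ^ 3 = (u ^ 4 * ModularForm.E₄ τ) ^ 3 := by
    refine mul_right_cancel₀ hd ?_
    rw [← hτ, hΔu]; ring
  have h6 : W.c₆ ^ 2 = (u ^ 6 * ModularForm.E₆ τ) ^ 2 := by
    have h := W.c_relation
    have h' := ModularForm.discriminant_eq_E₄_cube_sub_E₆_sq τ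
    linear_combination h4 + h - 1728 * hΔu - (1728 * u ^ 12) * h'
  obtain ⟨ω, hω, hω'⟩ : ∃ ω : ℂ, ω ^ 3 = 1 ∧ W.c₄ = ω * (u ^ 4 * ModularForm.E₄ τ) := by
    by_cases h0 : u ^ 4 * ModularForm.E₄ τ = 0
    · refine ⟨1, one_pow _, ?_⟩
      rw [h0, zero_pow (by norm_num), pow_eq_zero_iff (by norm_num)] at h4
      rw [h4, h0, mul_zero]
    · exact ⟨W.c₄ / (u ^ 4 * ModularForm.E₄ τ), by rw [div_pow, h4, div_self (pow_ne_zero _ h0)],
        by rw [div_mul_cancel₀ _ h0]⟩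
  obtain ⟨i, hi, hi'⟩ : ∃ i : ℂ, i ^ 4 = 1 ∧ W.c₆ = i ^ 2 * (u ^ 6 * ModularForm.E₆ τ) := by
    rcases sq_eq_sq_iff_eq_or_eq_neg.mp h6 with h | h
    · exact ⟨1, one_pow _, by rw [h]; ring⟩
    · exact ⟨Complex.I, Complex.I_pow_four, by rw [h, Complex.I_sq]; ring⟩
  have hx : ω * i ≠ 0 := mul_ne_zero (fun h => by simp [h] at hω) fun h => by simp [h] at hi
  refine ⟨τ, ⟨⟨u * (ω * i) / (2 * π), div_ne_zero (mul_ne_zero hu0 hx)
    (by simp [Real.pi_ne_zero]), ?_, ?_⟩⟩⟩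
  · rw [g₂_pairTau, hω', div_pow, mul_pow, mul_pow, show (ω : ℂ) ^ 4 = ω ^ 3 * ω by ring, hω, hi]
    have : (π : ℂ) ≠ 0 := Complex.ofReal_ne_zero.mpr Real.pi_ne_zero
    field_simp
    ring
  · rw [g₃_pairTau, hi', div_pow, mul_pow, mul_pow, show (ω : ℂ) ^ 6 = (ω ^ 3) ^ 2 by ring, hω,
      show (i : ℂ) ^ 6 = i ^ 4 * i ^ 2 by ring, hi]
    have : (π : ℂ) ≠ 0 := Complex.ofReal_ne_zero.mpr Real.pi_ne_zero
    field_simp
    ring

/-- A matrix whose lower row is congruent to a given nonzero vector modulo `p`. -/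
theorem exists_SL2_row {p : ℕ} (hp : p.Prime) {m n : ℤ} (h : ¬((p : ℤ) ∣ m ∧ (p : ℤ) ∣ n)) :
    ∃ g : SL(2, ℤ), (p : ℤ) ∣ g 1 0 - m ∧ (p : ℤ) ∣ g 1 1 - n := by
  have key : ∀ m n : ℤ, ¬(p : ℤ) ∣ m → ∃ d, (p : ℤ) ∣ d - n ∧ IsCoprime m d := by
    intro m n hm
    obtain ⟨a, b, hab⟩ := ((Nat.prime_iff_prime_int.mp hp).irreducible.coprime_iff_not_dvd.mpr hm)
    refine ⟨n * (b * m) + a * p, ⟨a * (1 - n), ?_⟩, ?_⟩
    · linear_combination n * hab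
    · exact ⟨b * (1 - n), 1, by linear_combination hab⟩
  have fin : ∀ c d : ℤ, IsCoprime c d → ∃ g : SL(2, ℤ), g 1 0 = c ∧ g 1 1 = d := by
    rintro c d ⟨a, b, hab⟩
    exact ⟨⟨!![b, -a; c, d], by rw [Matrix.det_fin_two_of]; linear_combination hab⟩, rfl, rfl⟩
  by_cases hm : (p : ℤ) ∣ m
  · obtain ⟨c, hc, hcd⟩ := key n m fun hn => h ⟨hm, hn⟩
    obtain ⟨g, h1, h2⟩ := fin c n hcd.symm
    exact ⟨g, by rw [h1]; exact hc, by rw [h2, sub_self]; exact dvd_zero _⟩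
  · obtain ⟨d, hd, hcd⟩ := key m n hm
    obtain ⟨g, h1, h2⟩ := fin m d hcd
    exact ⟨g, by rw [h1, sub_self]; exact dvd_zero _, by rw [h2]; exact hd⟩

theorem exists_datum_hom_eq [DecidableEq ℂ] (hΔ : W.Δ ≠ 0) {p : ℕ} (hp : p.Prime)
    {T : W.toAffine.Point} (hT : addOrderOf T = p) :
    ∃ (τ : ℍ) (D : Datum W (pairTau τ)), D.hom (1 / p) = T := by
  have : W.IsElliptic := ⟨isUnit_iff_ne_zero.mpr hΔ⟩
  obtain ⟨τ, ⟨D⟩⟩ := exists_datum hΔ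
  obtain ⟨z, hz, rfl⟩ := D.exists_hom_eq_of_nsmul_eq_zero hp.ne_zero
    (P := T) (hT ▸ addOrderOf_nsmul_eq_zero T)
  obtain ⟨m, n, hmn⟩ := mem_pairTau.mp hz
  have hp0 : (p : ℂ) ≠ 0 := Nat.cast_ne_zero.mpr hp.ne_zero
  have hmn' : ¬((p : ℤ) ∣ m ∧ (p : ℤ) ∣ n) := by
    rintro ⟨⟨a, rfl⟩, ⟨b, rfl⟩⟩
    have hzL : z ∈ (pairTau τ).lattice := mem_pairTau.mpr ⟨a, b, by
      push_cast at hmn
      apply mul_left_cancel₀ hp0
      linear_combination hmn⟩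
    rw [(D.hom_eq_zero_iff).mpr hzL, addOrderOf_zero] at hT
    exact hp.one_lt.ne hT
  obtain ⟨g, ⟨a, ha⟩, ⟨b, hb⟩⟩ := exists_SL2_row hp hmn'
  refine ⟨g • τ, scaleDatum D g, ?_⟩
  rw [scaleDatum_hom, ← sub_eq_zero, ← map_sub, D.hom_eq_zero_iff]
  refine mem_pairTau.mpr ⟨a, b, ?_⟩
  have haC : (g 1 0 : ℂ) - m = p * a := by exact_mod_cast ha
  have hbC : (g 1 1 : ℂ) - n = p * b := by exact_mod_cast hb
  field_simp
  linear_combination -(τ : ℂ) * haC - hbC - hmn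

theorem eta_nsmul_hom [DecidableEq ℂ] {τ : ℍ} (D : Datum W (pairTau τ)) (p k : ℕ) :
    Wp.eta (k • D.hom (1 / p)) = D.s ^ 3 * ℘'[pairTau τ] ((k : ℂ) / p) := by
  rw [← map_nsmul, D.eta_hom, nsmul_eq_mul, mul_one_div]

theorem inv_uFun_eq_unitValue [DecidableEq ℂ] {p : ℕ} [NeZero p] (hp : p.Prime) (hp2 : p ≠ 2)
    {τ : ℍ} (D : Datum W (pairTau τ)) :
    (uFun p τ)⁻¹ = unitValue p (D.hom (1 / p)) := by
  rw [inv_uFun_eq hp hp2, unitValue, divProd, Δ_eq D]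
  simp only [eta_nsmul_hom, mul_pow, ← pow_mul, prod_mul_distrib, prod_const, Nat.card_Ico]
  have := ModularForm.discriminant_ne_zero τ
  have := D.s_ne
  have : (π : ℂ) ≠ 0 := Complex.ofReal_ne_zero.mpr Real.pi_ne_zero
  field_simp

end Fermat.Agent.Mazur.Moduli
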