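import Fermat.Agent.EC.Multiplicative.Int
import Fermat.Agent.EC.Multiplicative.Count
import Fermat.Agent.Mazur.Moduli.Normalize

/-!
# The valuation of `p¹² ∏ η(kT)⁴ / Δ^{p-1}` at a multiplicative place
-/

open WeierstrassCurve WeierstrassCurve.Affine Finset
open scoped WeierstrassCurve.Affine

namespace Fermat.Agent.Mazur.Moduli

open Fermat.Agent.EC.Reduction Fermat.Agent.EC.Multiplicative

variable {L : Type*} [Field L] {A : ValuationSubring L}
  {W : Affine L} {V : Affine (IsLocalRing.ResidueField A)}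
  [DecidableEq L] [DecidableEq (IsLocalRing.ResidueField A)]

theorem valuation_eta_of_inE0 (h : ReducesTo A W V) {n : ℕ} (hodd : Odd n)
    (hn : A.valuation (n : L) = 1) {P : W.Point} (hP : InE0 A V P) (h0 : P ≠ 0)
    (h' : n • P = 0) : A.valuation (Wp.eta P) = 1 := by
  match P with
  | .zero => exact absurd rfl h0
  | .some x y hns =>
    have hx : x ∈ A := by_contra fun hx =>
      h0 (h.eq_zero_of_nsmul_eq_zero hn (P := Point.some x y hns) hx h')
    have hy : y ∈ A := h.y_mem hns.left hx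
    have hV := hP.resolve_left (not_not_intro hx)
    obtain ⟨hny, e⟩ := h.res_negY hx hy
    have heta : 2 * y + W.a₁ * x + W.a₃ = y - W.negY x y := by rw [negY]; ring
    rw [Wp.eta_some, heta]
    refine le_antisymm ((A.valuation_le_one_iff _).mpr (sub_mem hy hny)) (not_lt.mp fun hlt => h0 ?_)
    have hres : res A (W.negY x y) = res A y := by
      have := res_eq_zero (A := A) (A.mem_nonunits_iff.mpr hlt)
      rw [res_sub hy hny, sub_eq_zero] at this
      exact this.symm
    have hneg : InE0 A V (-Point.some x y hns) := (h.neg_spec hP).1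
    have hPn : -Point.some x y hns = Point.some x y hns := by
      refine h.eq_of_redFun_eq hn hneg hP (by rw [smul_neg, h', neg_zero]) h' ?_
      rw [(h.neg_spec hP).2, redFun_some hns hx hV, Point.neg_some]
      exact some_eq_some _ _ rfl (e.symm.trans hres)
    obtain ⟨k, rfl⟩ := hodd
    have h2 : 2 • Point.some x y hns = 0 := by
      rw [two_nsmul]
      nth_rw 1 [← hPn]
      exact neg_add_cancel _
    rwa [succ_nsmul, mul_comm, mul_nsmul', h2, smul_zero, zero_add] at h'

theorem torsion_atNode (N : Node A W V) {n : ℕ} (hodd : Odd n) {P : W.Point} (hP : N.AtNode P)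
    (h' : n • P = 0) : ∃ (i : ℕ) (s : ℤ), 0 < i ∧ 2 * i < n ∧ (s = i ∨ s = -(i : ℤ)) ∧
      A.valuation (Wp.eta P) ^ n = A.valuation N.c ^ i ∧
      ∃ g, N.comp P = N.cls g ∧ g ≠ 0 ∧ g ^ n = (A.valuation N.c ^ 2) ^ s := by
  match P with
  | .some x y hns =>
    obtain ⟨hlt, i, hi0, hi, hv⟩ := N.valuation_pow_of_nsmul hodd hP h'
    have hn := N.nearNode hns hP
    have hvX : A.valuation (x - N.r) ≠ 0 :=
      A.valuation.ne_zero_iff.mpr (NearNode.X_ne_zero hlt)
    have heq : A.valuation (Wp.eta (Point.some x y hns)) = A.valuation (x - N.r) := by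
      set X := x - N.r
      set Y := y - N.t
      have e : 2 * y + W.a₁ * x + W.a₃ = (Y - N.a * X) + (Y - N.b * X) := by
        simp only [X, Y]
        linear_combination N.eq₃ + (x - N.r) * N.sum_ab
      rw [Wp.eta_some, e]
      have hab : A.valuation ((N.a - N.b) * X) = A.valuation X := by
        rw [map_mul, N.par.hab, one_mul]
      have key : ∀ {u w : L}, A.valuation u < A.valuation X →
          A.valuation (w - u) = A.valuation X → A.valuation (u + w) = A.valuation X := by
        intro u w hu hd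
        have hw : A.valuation w = A.valuation X := by
          rw [show w = u + (w - u) by ring,
            A.valuation.map_add_eq_of_lt_right (hu.trans_eq hd.symm), hd]
        rw [A.valuation.map_add_eq_of_lt_right (hu.trans_eq hw.symm), hw]
      rcases hn.either hlt with hb | hb
      · exact key hb (by rw [show Y - N.b * X - (Y - N.a * X) = (N.a - N.b) * X by ring]; exact hab)
      · rw [add_comm]
        exact key hb (by
          rw [show Y - N.a * X - (Y - N.b * X) = -((N.a - N.b) * X) by ring, A.valuation.map_neg]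
          exact hab)
    have hg := NearNode.compVal_ne_zero (X := x - N.r) (Y := y - N.t) N.par
    by_cases hbr : A.valuation (y - N.t - N.a * (x - N.r)) < A.valuation (x - N.r)
    · refine ⟨i, i, hi0, hi, Or.inl rfl, by rw [heq, hv], _, N.comp_of_atNode hP, hg, ?_⟩
      rw [compVal, if_pos hlt, if_pos hbr, zpow_natCast, ← pow_mul, mul_comm, pow_mul, hv,
        ← pow_mul, ← pow_mul, mul_comm]
    · refine ⟨i, -(i : ℤ), hi0, hi, Or.inr rfl, by rw [heq, hv], _, N.comp_of_atNode hP, hg, ?_⟩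
      rw [compVal, if_pos hlt, if_neg hbr, inv_pow, zpow_neg, zpow_natCast, ← pow_mul, mul_comm,
        pow_mul, hv, ← pow_mul, ← pow_mul, mul_comm]

omit [DecidableEq L] [DecidableEq (IsLocalRing.ResidueField A)] in
theorem two_mul_eq_of_zpow_eq (N : Node A W V) {a b : ℤ}
    (h : (A.valuation N.c ^ 2) ^ a = (A.valuation N.c ^ 2) ^ b) : a = b :=
  zpow_right_injective₀ (pow_pos (zero_lt_iff.mpr N.par.vc_ne_zero) 2)
    (pow_lt_one₀ zero_le N.par.hc two_ne_zero).ne h

/-- `(∏ v(η(kT))⁴)^p = v(c)^{p²-1}` for a point of order `p` through the node. -/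
theorem prod_valuation_eta (N : Node A W V) {p : ℕ} (hp : p.Prime) (hp2 : p ≠ 2) {T : W.Point}
    (hT : addOrderOf T = p) (hTn : ¬ InE0 A V T) :
    (∏ k ∈ Ico 1 p, A.valuation (Wp.eta (k • T)) ^ 4) ^ p = A.valuation N.c ^ (p ^ 2 - 1) := by
  have hodd := hp.odd_of_ne_two hp2
  have hk0 : ∀ k : ℕ, p • (k • T) = 0 := fun k => by
    rw [← mul_nsmul', mul_comm, mul_nsmul', ← hT, addOrderOf_nsmul_eq_zero, smul_zero]
  have hnot : ∀ k ∈ Ico 1 p, N.AtNode (k • T) := by
    intro k hk
    rw [mem_Ico] at hk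
    refine (N.not_inE0_iff _).mp fun hin => hTn ?_
    obtain ⟨m, hm⟩ := Nat.exists_mul_mod_eq_one_of_coprime
      (show k.Coprime p from (hp.coprime_iff_not_dvd.mpr fun hd =>
        absurd (Nat.le_of_dvd (by omega) hd) (by omega)).symm) hp.one_lt
    have e : T = m • (k • T) := by
      rw [← mul_nsmul']
      conv_lhs => rw [← one_nsmul T, ← hm.2]
      rw [mul_comm k m, ← hT, mod_addOrderOf_nsmul]
    exact (e ▸ N.red.E0.nsmul_mem (show k • T ∈ N.red.E0 from hin) m : T ∈ N.red.E0)
  have h1 : T ≠ 0 := fun h => by rw [h, addOrderOf_zero] at hT; exact hp.one_lt.ne hT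
  have hTp : N.AtNode T := (N.not_inE0_iff T).mp hTn
  obtain ⟨i₁, s₁, hi₁, hi₁', hs₁, -, g₁, hcg₁, hg₁, hgp₁⟩ :=
    torsion_atNode N hodd hTp (hT ▸ addOrderOf_nsmul_eq_zero T)
  have hs₁p : ¬ (p : ℤ) ∣ s₁ := fun hd => by
    have hd' : p ∣ i₁ := by
      rcases hs₁ with rfl | rfl
      · exact_mod_cast hd
      · exact_mod_cast (dvd_neg.mp hd)
    exact absurd (Nat.le_of_dvd hi₁ hd') (by omega)
  have key : ∀ k ∈ Ico 1 p, A.valuation (Wp.eta (k • T)) ^ p
      = A.valuation N.c ^ min (resMul p s₁ k) (p - resMul p s₁ k) := by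
    intro k hk
    obtain ⟨i, s, hi0, hi, hs, hv, g, hcg, hg, hgp⟩ := torsion_atNode N hodd (hnot k hk) (hk0 k)
    rw [hv]
    congr 1
    have hrel : InH A.valuation N.c (g * (g₁ ^ k)⁻¹) := by
      have hcls : N.cls g = N.cls (g₁ ^ k) := by
        rw [← hcg, N.cls_pow hg₁, ← hcg₁]
        exact map_nsmul N.compHom k T
      rw [← N.cls_eq_zero_iff (mul_ne_zero hg (inv_ne_zero (pow_ne_zero _ hg₁))),
        N.cls_mul hg (inv_ne_zero (pow_ne_zero _ hg₁)), hcls,
        ← N.cls_mul (pow_ne_zero _ hg₁) (inv_ne_zero (pow_ne_zero _ hg₁)),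
        mul_inv_cancel₀ (pow_ne_zero _ hg₁), N.cls_eq_zero_iff one_ne_zero]
      exact InH.one
    obtain ⟨m, hm⟩ := hrel
    have hc2 : (A.valuation N.c ^ 2) ≠ 0 := pow_ne_zero _ N.par.vc_ne_zero
    have hsk : s - s₁ * k = m * p := by
      refine two_mul_eq_of_zpow_eq N ?_
      rw [zpow_sub₀ hc2, zpow_mul _ s₁, ← hgp, ← hgp₁, zpow_natCast, zpow_mul, ← hm, zpow_natCast,
        mul_pow, inv_pow, ← pow_mul, ← pow_mul, mul_comm k p, div_eq_mul_inv]
    obtain ⟨n, hn⟩ := exists_eq_resMul_add hp.ne_zero s₁ k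
    have hr := mem_Ico.mp (resMul_mem hp hs₁p hk)
    have hd : s - (resMul p s₁ k : ℤ) = (m + n) * p := by linear_combination hsk + hn
    have hbound : -(2 * (p : ℤ)) < (m + n) * p ∧ (m + n) * p < 1 * p := by
      rw [← hd]
      rcases hs with rfl | rfl <;> constructor <;> omega
    have hmn : m + n = 0 ∨ m + n = -1 := by
      have hp0 : (0 : ℤ) < p := by exact_mod_cast hp.pos
      have e1 : m + n < 1 := Int.lt_of_mul_lt_mul_right hbound.2 hp0.le
      have e2 : -2 < m + n := Int.lt_of_mul_lt_mul_right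
        (by rw [neg_mul]; exact hbound.1 : (-2 : ℤ) * p < (m + n) * p) hp0.le
      omega
    rcases hmn with h0 | h0 <;> rw [h0] at hd <;> rcases hs with rfl | rfl <;> omega
  rw [← prod_pow]
  simp only [← pow_mul, mul_comm 4 p]
  simp only [pow_mul]
  rw [prod_congr rfl fun k hk => by rw [key k hk, ← pow_mul]]
  rw [prod_pow_eq_pow_sum, ← sum_mul, sum_resMul hp hs₁p (fun k => min k (p - k)), mul_comm]
  obtain ⟨m, rfl⟩ := hodd
  have := four_mul_sum_min m
  congr 1
  omega

end Fermat.Agent.Mazur.Moduli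

namespace Fermat.Agent.Mazur.Moduli

open Fermat.Agent.EC.Reduction Fermat.Agent.EC.Multiplicative

local notation "ℚbar" => AlgebraicClosure ℚ

variable {W : WeierstrassCurve ℤ} {A : ValuationSubring ℚbar} {q p : ℕ}

open scoped Classical in
/-- The sign of the valuation of `unitValue` records the component of `T`. -/
theorem valuation_unitValue (hp : p.Prime) (hp2 : p ≠ 2) (hq : q.Prime) (hqp : q ≠ p)
    (hA : A.LiesOverPrime q) (hΔ0 : W.Δ ≠ 0) (hΔ : (q : ℤ) ∣ W.Δ) (hc₄ : ¬ (q : ℤ) ∣ W.c₄)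
    {T : ((W.map (Int.castRingHom ℚ))⁄ℚbar).Point} (hT : addOrderOf T = p) :
    (W.InZeroComponentAt A T → 1 < A.valuation (unitValue p T)) ∧
      (¬ W.InZeroComponentAt A T → A.valuation (unitValue p T) < 1) := by
  obtain ⟨N, hN⟩ := exists_node_int hA hq hΔ0 hΔ hc₄
  have hqp' : ¬ q ∣ p := fun h => hqp ((Nat.prime_dvd_prime_iff_eq hq hp).mp h)
  have hpv : A.valuation (p : ℚbar) = 1 := valuation_natCast_eq_one hA hq hqp'
  have hvΔ : A.valuation (((W.map (Int.castRingHom ℚ))⁄ℚbar).toAffine.Δ) = A.valuation N.c := by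
    rw [Δ_qbar, hN, valuation_intCast hA hq hΔ0]
  have hc0 : 0 < A.valuation N.c := zero_lt_iff.mpr N.par.vc_ne_zero
  have hval : A.valuation (unitValue p T)
      = (∏ k ∈ Ico 1 p, A.valuation (Wp.eta (k • T)) ^ 4) / A.valuation N.c ^ (p - 1) := by
    rw [unitValue, map_div₀, map_mul, map_pow, map_pow, map_prod, hpv, one_pow, one_mul]
    simp only [map_pow]
    rw [hvΔ]
  constructor <;> intro h
  · rw [inZeroComponentAt_iff] at h
    rw [hval, prod_eq_one fun k hk => ?_]
    · rw [one_div, one_lt_inv₀ (pow_pos hc0 _)]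
      exact pow_lt_one₀ zero_le N.par.hc (Nat.sub_ne_zero_of_lt hp.one_lt)
    rw [valuation_eta_of_inE0 N.red (hp.odd_of_ne_two hp2) hpv
      (N.red.E0.nsmul_mem (show T ∈ N.red.E0 from h) k) ?_ ?_, one_pow]
    · intro h0
      have := addOrderOf_dvd_of_nsmul_eq_zero h0
      rw [hT] at this
      rw [mem_Ico] at hk
      exact absurd (Nat.le_of_dvd (by omega) this) (by omega)
    · rw [← mul_nsmul', mul_comm, mul_nsmul', ← hT, addOrderOf_nsmul_eq_zero, smul_zero]
  · rw [inZeroComponentAt_iff] at h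
    refine lt_of_pow_lt_pow_left₀ p zero_le ?_
    rw [one_pow, hval, div_pow, prod_valuation_eta N hp hp2 hT h, ← pow_mul,
      div_lt_one₀ (pow_pos hc0 _)]
    refine pow_lt_pow_right_of_lt_one₀ hc0 N.par.hc ?_
    obtain ⟨m, rfl⟩ : ∃ m, p = m + 1 := ⟨p - 1, by have := hp.one_lt; omega⟩
    have := hp.one_lt
    simp only [Nat.add_sub_cancel, pow_two]
    have : (m + 1) * (m + 1) = m * (m + 1) + (m + 1) := by ring
    omega

end Fermat.Agent.Mazur.Moduli
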