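import Fermat.Agent.Mazur.Moduli.Place
import Fermat.Agent.Mazur.Moduli.Reduction
import Fermat.Agent.Mazur.Moduli.Valuation
import Fermat.Agent.EC.Torsion.Galois
import Fermat.Agent.Poincare.LevelOne

/-!
# The point of `X₀(p)` attached to a curve with a stable subgroup of order `p`

For an integral equation `W` and a point `T` of order `p` generating a Galois stable subgroup,
with at least one multiplicative place where `T` lies on the identity component, there is a
Galois-fixed place of the `ℚ̄`-model of `X₀(p)` whose reduction at every multiplicative place is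
the cusp `∞` or `0` according to the component of `T`.
-/

set_option synthInstance.maxHeartbeats 400000

noncomputable section

open UpperHalfPlane hiding I
open WeierstrassCurve ModularCurve AlgebraicCurve Finset
open scoped WeierstrassCurve.Affine MatrixGroups

namespace Fermat.Agent.Mazur.Moduli

open Fermat.Agent.Wp Fermat.Agent.ModFun Fermat.Agent.EC.Reduction Fermat.Agent.EC.Multiplicative

attribute [local instance] Classical.propDecidable

local notation "ℚbar" => AlgebraicClosure ℚ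

section Map

variable {R F K : Type*} [CommRing R] [Field F] [Field K] [DecidableEq F] [DecidableEq K]
  [Algebra R F] [Algebra R K] {W' : Affine R} (f : F →ₐ[R] K)

theorem eta_map (P : (W'⁄F).Point) : Wp.eta (Affine.Point.map f P) = f (Wp.eta P) := by
  match P with
  | .zero => exact (map_zero f).symm
  | .some x y h =>
    rw [Affine.Point.map_some, Wp.eta_some, Wp.eta_some]
    simp [map_ofNat]

omit [DecidableEq F] [DecidableEq K] in
theorem map_baseChange_Δ : f (W'⁄F).Δ = (W'⁄K).Δ := by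
  show f (W'.map (algebraMap R F)).Δ = (W'.map (algebraMap R K)).Δ
  rw [map_Δ, map_Δ, f.commutes]

omit [DecidableEq F] [DecidableEq K] in
theorem map_baseChange_c₄ : f (W'⁄F).c₄ = (W'⁄K).c₄ := by
  show f (W'.map (algebraMap R F)).c₄ = (W'.map (algebraMap R K)).c₄
  rw [map_c₄, map_c₄, f.commutes]

theorem unitValue_map (p : ℕ) (T : (W'⁄F).Point) :
    f (unitValue p T) = unitValue p (Affine.Point.map f T) := by
  simp only [unitValue, map_div₀, map_mul, map_pow, map_prod, map_natCast, ← map_nsmul, eta_map,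
    map_baseChange_Δ]

end Map

theorem unitValue_nsmul {K : Type*} [Field K] [DecidableEq K] {W : WeierstrassCurve K} {p k : ℕ}
    (hp : p.Prime) {T : W.toAffine.Point} (hT : addOrderOf T = p) (hk : ¬ p ∣ k) :
    unitValue p (k • T) = unitValue p T := by
  have hk' : ¬ (p : ℤ) ∣ (k : ℤ) := by exact_mod_cast hk
  rw [unitValue, unitValue, ← prod_resMul hp hk' (fun i => Wp.eta (i • T) ^ 4)]
  congr 2
  refine prod_congr rfl fun i _ => ?_
  rw [← mul_nsmul', resMul, ← Nat.cast_mul, ← Int.natCast_mod, Int.toNat_natCast]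
  conv_rhs => rw [← hT, mod_addOrderOf_nsmul]

/-- The generic fibre of an integral equation. -/
abbrev ratModel (W : WeierstrassCurve ℤ) : WeierstrassCurve ℚ := W.map (Int.castRingHom ℚ)

/-- The chosen embedding of `ℚ̄` in `ℂ`. -/
def iotaAlg : ℚbar →ₐ[ℚ] ℂ := iotaC.toRatAlgHom

theorem iotaAlg_apply (x : ℚbar) : iotaAlg x = iotaC x := rfl

variable {W : WeierstrassCurve ℤ} {p : ℕ}

theorem qbar_Δ_ne_zero (hΔ0 : W.Δ ≠ 0) (K : Type) [Field K] [CharZero K] [Algebra ℚ K] :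
    ((ratModel W)⁄K).Δ ≠ 0 := by
  show (((W.map (Int.castRingHom ℚ))).map (algebraMap ℚ K)).Δ ≠ 0
  rw [map_Δ, map_Δ]
  simpa using hΔ0

/-- A point killed by `p` on the identity component at a multiplicative place is a multiple of a
point of order `p` there. -/
theorem exists_eq_nsmul_of_inZero (hp : p.Prime) {q : ℕ} (hq : q.Prime) (hqp : q ≠ p)
    {A : ValuationSubring ℚbar} (hA : A.LiesOverPrime q) (hΔ0 : W.Δ ≠ 0) (hΔ : (q : ℤ) ∣ W.Δ)
    (hc₄ : ¬ (q : ℤ) ∣ W.c₄) {T T' : ((ratModel W)⁄ℚbar).Point} (hT : addOrderOf T = p)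
    (hTin : W.InZeroComponentAt A T) (hT'in : W.InZeroComponentAt A T') (hT' : p • T' = 0) :
    ∃ k : ℕ, T' = k • T := by
  obtain ⟨N, -⟩ := exists_node_int hA hq hΔ0 hΔ hc₄
  rw [inZeroComponentAt_iff] at hTin hT'in
  have hcard := natCard_torsion_inE0 (W := W) hA hq hΔ0 hΔ hc₄ hp.ne_zero
    (n := p) fun h => hqp ((Nat.prime_dvd_prime_iff_eq hq hp).mp h)
  have : Finite {P : ((ratModel W)⁄ℚbar).Point //
      InE0 A (W.map (Int.castRingHom (IsLocalRing.ResidueField A))) P ∧ p • P = 0} :=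
    Nat.finite_of_card_ne_zero (hcard.trans_ne hp.ne_zero)
  have hTp : p • T = 0 := hT ▸ addOrderOf_nsmul_eq_zero T
  let f : Fin p → {P : ((ratModel W)⁄ℚbar).Point //
      InE0 A (W.map (Int.castRingHom (IsLocalRing.ResidueField A))) P ∧ p • P = 0} := fun k =>
    ⟨(k : ℕ) • T, N.red.E0.nsmul_mem (show T ∈ N.red.E0 from hTin) k, by
      rw [← mul_nsmul', mul_comm, mul_nsmul', hTp]
      exact nsmul_zero _⟩
  have hf : Function.Injective f := fun a b h =>
    Fin.ext (nsmul_injOn_Iio_addOrderOf (show (a : ℕ) ∈ Set.Iio (addOrderOf T) from hT ▸ a.isLt)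
      (show (b : ℕ) ∈ Set.Iio (addOrderOf T) from hT ▸ b.isLt) (congrArg Subtype.val h))
  obtain ⟨k, hk⟩ := ((Nat.bijective_iff_injective_and_card f).mpr
    ⟨hf, by rw [hcard, Nat.card_fin]⟩).2 ⟨T', hT'in, hT'⟩
  exact ⟨k, (congrArg Subtype.val hk).symm⟩

theorem coord_unique {τ : ℍ} {m n m' n' : ℤ} (h : (m : ℂ) * τ + n = m' * τ + n') : m = m' := by
  have h1 := congrArg Complex.im h
  simp [τ.im_pos.ne'] at h1
  exact_mod_cast h1

/-- The points of the upper half plane with the `j` and unit values of `(E, ⟨T⟩)` form one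
`Γ₀(p)`-orbit. -/
theorem exists_gamma0_smul_eq (hp : p.Prime) (hp2 : p ≠ 2) [NeZero p] (hΔ0 : W.Δ ≠ 0)
    {T : ((ratModel W)⁄ℚbar).Point} (hT : addOrderOf T = p)
    {q : ℕ} {A : ValuationSubring ℚbar} (hq : q.Prime) (hqp : q ≠ p) (hA : A.LiesOverPrime q)
    (hΔ : (q : ℤ) ∣ W.Δ) (hc₄ : ¬ (q : ℤ) ∣ W.c₄) (hTin : W.InZeroComponentAt A T)
    {τ₀ : ℍ} (D : Datum ((ratModel W)⁄ℂ) (pairTau τ₀))
    (hD : D.hom (1 / p) = Affine.Point.map iotaAlg T) {τ : ℍ}
    (hj : ModFun.jH τ = ModFun.jH τ₀)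
    (hu : (Igusa.uFun p τ)⁻¹ = iotaC (unitValue p T)) :
    ∃ g ∈ CongruenceSubgroup.Gamma0 p, g • τ₀ = τ := by
  obtain ⟨g, rfl⟩ := Poincare.exists_smul_eq_of_jH_eq (τ₀ := τ₀) (τ₁ := τ)
    (by rw [genusJ_eq]; exact hj.symm)
  refine ⟨g, ?_, rfl⟩
  rw [CongruenceSubgroup.Gamma0_mem, ZMod.intCast_zmod_eq_zero_iff_dvd]
  by_contra hc
  have hp0 : (p : ℂ) ≠ 0 := Nat.cast_ne_zero.mpr hp.ne_zero
  have : (ratModel W).IsElliptic :=
    (WeierstrassCurve.isElliptic_iff _).mpr (isUnit_iff_ne_zero.mpr (by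
      rw [map_Δ]; simpa using hΔ0))
  set z : ℂ := ((g 1 0 : ℂ) * τ₀ + g 1 1) * (1 / p) with hz
  have hpz : p • D.hom z = 0 := by
    rw [← map_nsmul, D.hom_eq_zero_iff, nsmul_eq_mul, hz, mul_one_div, mul_div_cancel₀ _ hp0]
    exact mem_pairTau.mpr ⟨g 1 0, g 1 1, rfl⟩
  obtain ⟨T', hT'p, hT'⟩ := EC.Torsion.exists_map_eq_of_nsmul_eq_zero (ratModel W) iotaAlg
    (n := p) (Nat.cast_ne_zero.mpr hp.ne_zero) (D.hom z) hpz
  have hne : ∀ k : ℕ, T' ≠ k • T := by
    rintro k rfl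
    rw [map_nsmul, ← hD, ← map_nsmul, eq_comm, ← sub_eq_zero, ← map_sub, D.hom_eq_zero_iff] at hT'
    obtain ⟨m, n, hmn⟩ := mem_pairTau.mp hT'
    refine hc ⟨m, ?_⟩
    refine coord_unique (τ := τ₀) (n := g 1 1 - k) (n' := p * n) ?_
    rw [hz, nsmul_eq_mul] at hmn
    field_simp at hmn
    push_cast
    linear_combination -hmn
  have hT'o : addOrderOf T' = p := by
    have := Fact.mk hp
    exact addOrderOf_eq_prime hT'p fun h0 => hne 0 (h0.trans (zero_nsmul T).symm)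
  have hb : unitValue p T' = unitValue p T := by
    apply iotaAlg.toRingHom.injective
    show iotaAlg _ = iotaAlg _
    rw [unitValue_map, hT', ← scaleDatum_hom D g, ← inv_uFun_eq_unitValue hp hp2, hu,
      iotaAlg_apply]
  have h1 := (valuation_unitValue hp hp2 hq hqp hA hΔ0 hΔ hc₄ hT).1 hTin
  have h2 : W.InZeroComponentAt A T' := by
    by_contra h
    have := (valuation_unitValue hp hp2 hq hqp hA hΔ0 hΔ hc₄ hT'o).2 h
    rw [hb] at this
    exact lt_irrefl _ (this.trans h1)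
  obtain ⟨k, hk⟩ := exists_eq_nsmul_of_inZero hp hq hqp hA hΔ0 hΔ hc₄ hT hTin h2 hT'p
  exact hne k hk

theorem galois_smul_unitBar [NeZero p] (σ : ℚbar ≃ₐ[ℚ] ℚbar) :
    arithmeticGalois (modularFunctionFieldFull p) σ • unitBar p = unitBar p := by
  refine Subtype.ext ?_
  rw [coe_arithmeticGalois_smul, coe_unitBar, coeffEmb, coeffMap_coeffMap]
  exact coeffMap_congr (RingHom.ext fun r => σ.commutes r) _

theorem galois_smul_jBar [NeZero p] (σ : ℚbar ≃ₐ[ℚ] ℚbar) :
    arithmeticGalois (modularFunctionFieldFull p) σ • jBar p = jBar p :=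
  Subtype.ext (by
    rw [coe_arithmeticGalois_smul, coe_jBase]
    exact coeffMap_jqModC _)

theorem hasValues_galois_smul [NeZero p] {x : Place ℚbar (modularFunctionFieldBar p)}
    {a b : ℚbar} (h : HasValues x a b) (σ : ℚbar ≃ₐ[ℚ] ℚbar) :
    HasValues (arithmeticGalois (modularFunctionFieldFull p) σ • x) (σ a) (σ b) := by
  set g := arithmeticGalois (modularFunctionFieldFull p) σ
  have hc : ∀ c : ℚbar, g • algebraMap ℚbar (modularFunctionFieldBar p) c
      = algebraMap ℚbar (modularFunctionFieldBar p) (σ c) := fun c =>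
    arithmeticRingAut_algebraMap _ σ c
  constructor
  · have h1 := h.1
    rw [← SemilinearAut.ord_smul g, smul_sub, galois_smul_jBar, hc] at h1
    exact h1
  · have h1 := h.2
    rw [← SemilinearAut.ord_smul g, smul_sub, galois_smul_unitBar, hc] at h1
    exact h1

/-- The moduli point of `(E, ⟨T⟩)` and its reductions. -/
theorem exists_moduliPoint [NeZero p] (hp : p.Prime) (hp5 : 5 ≤ p) (W : WeierstrassCurve ℤ)
    (hΔ0 : W.Δ ≠ 0) (T : ((ratModel W)⁄ℚbar).Point) (hT : addOrderOf T = p)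
    (hstable : ∀ σ : ℚbar ≃ₐ[ℚ] ℚbar, ∃ k : ℕ, σ • T = k • T)
    (hin : ∃ (q : ℕ) (A : ValuationSubring ℚbar), q.Prime ∧ q ≠ p ∧ A.LiesOverPrime q ∧
      (q : ℤ) ∣ W.Δ ∧ ¬ (q : ℤ) ∣ W.c₄ ∧ W.InZeroComponentAt A T) :
    ∃ x : Place ℚbar (modularFunctionFieldBar p),
      (∀ σ : ℚbar ≃ₐ[ℚ] ℚbar, arithmeticGalois (modularFunctionFieldFull p) σ • x = x) ∧
      ∀ q : ℕ, q.Prime → q ≠ p → ∀ A : ValuationSubring ℚbar, A.LiesOverPrime q →
        (q : ℤ) ∣ W.Δ → ¬ (q : ℤ) ∣ W.c₄ → ∀ h : ReductionInputsModL A p,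
        ∀ Pinf Pzero : Place ℚbar (modularFunctionFieldBar p),
          Pinf.ord (jBar p) = -1 → Pzero.ord (jBar p) = -(p : ℤ) →
          (W.InZeroComponentAt A T →
              placeReductionModL h x = placeReductionModL h Pinf) ∧
            (¬ W.InZeroComponentAt A T →
              placeReductionModL h x = placeReductionModL h Pzero) := by
  have := Fact.mk hp
  have hp2 : p ≠ 2 := by omega
  obtain ⟨q₀, A₀, hq₀, hqp₀, hA₀, hΔ₀, hc₀, hin₀⟩ := hin
  set a : ℚbar := ((ratModel W)⁄ℚbar).c₄ ^ 3 / ((ratModel W)⁄ℚbar).Δ with ha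
  set b : ℚbar := unitValue p T with hb
  have hTC : addOrderOf (Affine.Point.map iotaAlg T) = p :=
    (addOrderOf_injective _ (Affine.Point.map_injective iotaAlg) T).trans hT
  obtain ⟨τ₀, D, hD⟩ := exists_datum_hom_eq (qbar_Δ_ne_zero hΔ0 ℂ) hp hTC
  have hj₀ : iotaC a = ModFun.jH τ₀ := by
    rw [← jH_eq D (qbar_Δ_ne_zero hΔ0 ℂ), ha, ← iotaAlg_apply, map_div₀, map_pow,
      map_baseChange_c₄, map_baseChange_Δ]
  have hb₀ : iotaC b = (Igusa.uFun p τ₀)⁻¹ := by
    rw [← iotaAlg_apply, hb, unitValue_map, ← hD, inv_uFun_eq_unitValue hp hp2]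
  obtain ⟨x, hx⟩ := exists_hasValues (p := p) hp.one_lt hj₀ hb₀
  refine ⟨x, fun σ => ?_, fun q hq hqp A hA hΔ hc h Pinf Pzero hPi hPz => ?_⟩
  · have hσa : σ a = a := by
      rw [ha, show σ _ = σ.toAlgHom _ from rfl, map_div₀, map_pow, map_baseChange_c₄,
        map_baseChange_Δ]
    have hσb : σ b = b := by
      obtain ⟨k, hk⟩ := hstable σ
      have hk' : ¬ p ∣ k := by
        rintro ⟨m, rfl⟩
        rw [mul_comm, mul_nsmul', ← hT, addOrderOf_nsmul_eq_zero, smul_zero] at hk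
        replace hk : T = 0 := smul_left_cancel σ (hk.trans (smul_zero σ).symm)
        rw [hk, addOrderOf_zero] at hT
        exact hp.one_lt.ne hT
      rw [hb, show σ (unitValue p T) = σ.toAlgHom (unitValue p T) from rfl, unitValue_map,
        ← Affine.Point.algEquiv_smul_def, hk]
      exact unitValue_nsmul hp hT hk'
    have hσx := hasValues_galois_smul hx σ
    rw [hσa, hσb] at hσx
    obtain ⟨τ₁, hτ₁, hj₁, hu₁⟩ := exists_point_of_hasValues hx
    obtain ⟨τ₂, hτ₂, hj₂, hu₂⟩ := exists_point_of_hasValues hσx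
    obtain ⟨g₁, hg₁, hgτ₁⟩ := exists_gamma0_smul_eq hp hp2 hΔ0 hT hq₀ hqp₀ hA₀ hΔ₀ hc₀ hin₀ D hD
      (hj₁.trans hj₀) hu₁
    obtain ⟨g₂, hg₂, hgτ₂⟩ := exists_gamma0_smul_eq hp hp2 hΔ0 hT hq₀ hqp₀ hA₀ hΔ₀ hc₀ hin₀ D hD
      (hj₂.trans hj₀) hu₂
    refine (eq_of_orbit hτ₁ hτ₂ (mul_mem hg₂ (inv_mem hg₁)) ?_).symm
    rw [mul_smul, ← hgτ₁, inv_smul_smul, hgτ₂]
  · obtain rfl : Pinf = Eisenstein.placeInf p := Eisenstein.eq_placeInf_of_ord p hPi
    obtain rfl : Pzero = Eisenstein.placeZero p := Eisenstein.eq_placeZero_of_ord p hPz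
    have hr := isPlaceReductionModL_placeReductionModL h
    exact ⟨fun h' => reduction_eq_placeInf hr
        ((valuation_unitValue hp hp2 hq hqp hA hΔ0 hΔ hc hT).1 h') hx.2,
      fun h' => reduction_eq_placeZero hr
        ((valuation_unitValue hp hp2 hq hqp hA hΔ0 hΔ hc hT).2 h') hx.2⟩

end Fermat.Agent.Mazur.Moduli
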