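import Mathlib.Algebra.BigOperators.Intervals
import Mathlib.Data.Int.ModEq
import Mathlib.RingTheory.RootsOfUnity.Lemmas
import Mathlib.RingTheory.RootsOfUnity.Complex

/-!
# Products over nonzero residues modulo a prime
-/

open Finset

namespace Fermat.Agent.Mazur.Moduli

variable {p : ℕ}

/-- The residue of `k * d` modulo `p`. -/
def resMul (p : ℕ) (d : ℤ) (k : ℕ) : ℕ := (((k : ℤ) * d) % p).toNat

theorem resMul_spec (hp : p ≠ 0) (d : ℤ) (k : ℕ) :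
    ((resMul p d k : ℕ) : ℤ) = ((k : ℤ) * d) % p :=
  Int.toNat_of_nonneg (Int.emod_nonneg _ (by exact_mod_cast hp))

theorem exists_eq_resMul_add (hp : p ≠ 0) (d : ℤ) (k : ℕ) :
    ∃ n : ℤ, (k : ℤ) * d = resMul p d k + n * p :=
  ⟨((k : ℤ) * d) / p, by rw [resMul_spec hp, mul_comm _ (p : ℤ), Int.emod_add_mul_ediv]⟩

theorem resMul_mem (hp : p.Prime) {d : ℤ} (hd : ¬(p : ℤ) ∣ d) {k : ℕ} (hk : k ∈ Ico 1 p) :
    resMul p d k ∈ Ico 1 p := by
  rw [mem_Ico] at hk ⊢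
  have h0 := resMul_spec hp.ne_zero d k
  have h1 : ((k : ℤ) * d) % p < p := Int.emod_lt_of_pos _ (by exact_mod_cast hp.pos)
  have h2 : ((k : ℤ) * d) % p ≠ 0 := fun h => by
    rcases (Nat.prime_iff_prime_int.mp hp).dvd_mul.mp (Int.dvd_of_emod_eq_zero h) with h' | h'
    · have h'' : p ∣ k := by exact_mod_cast h'
      exact absurd (Nat.le_of_dvd (by omega) h'') (by omega)
    · exact hd h'
  omega

theorem resMul_injOn (hp : p.Prime) {d : ℤ} (hd : ¬(p : ℤ) ∣ d) :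
    Set.InjOn (resMul p d) (Ico 1 p : Finset ℕ) := by
  intro a ha b hb h
  simp only [coe_Ico, Set.mem_Ico] at ha hb
  obtain ⟨m, hm⟩ := exists_eq_resMul_add hp.ne_zero d a
  obtain ⟨n, hn⟩ := exists_eq_resMul_add hp.ne_zero d b
  have h1 : (p : ℤ) ∣ ((a : ℤ) - b) * d := ⟨m - n, by rw [sub_mul, hm, hn, h]; ring⟩
  rcases (Nat.prime_iff_prime_int.mp hp).dvd_mul.mp h1 with h' | h'
  · obtain ⟨c, hc⟩ := h'
    have : c = 0 := by
      rcases lt_trichotomy c 0 with h0 | h0 | h0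
      · nlinarith
      · exact h0
      · nlinarith
    subst this
    omega
  · exact absurd h' hd

theorem image_resMul (hp : p.Prime) {d : ℤ} (hd : ¬(p : ℤ) ∣ d) :
    (Ico 1 p).image (resMul p d) = Ico 1 p :=
  eq_of_subset_of_card_le (image_subset_iff.mpr fun _ hk => resMul_mem hp hd hk)
    (card_image_of_injOn (resMul_injOn hp hd)).ge

theorem prod_resMul {M : Type*} [CommMonoid M] (hp : p.Prime) {d : ℤ} (hd : ¬(p : ℤ) ∣ d)
    (f : ℕ → M) : ∏ k ∈ Ico 1 p, f (resMul p d k) = ∏ k ∈ Ico 1 p, f k := by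
  conv_rhs => rw [← image_resMul hp hd, prod_image (resMul_injOn hp hd)]

theorem sum_resMul {M : Type*} [AddCommMonoid M] (hp : p.Prime) {d : ℤ} (hd : ¬(p : ℤ) ∣ d)
    (f : ℕ → M) : ∑ k ∈ Ico 1 p, f (resMul p d k) = ∑ k ∈ Ico 1 p, f k := by
  conv_rhs => rw [← image_resMul hp hd, sum_image (resMul_injOn hp hd)]

/-- `4 ∑ min(k, p - k) = p² - 1` for odd `p`. -/
theorem four_mul_sum_min (m : ℕ) :
    4 * ∑ k ∈ Ico 1 (2 * m + 1), min k (2 * m + 1 - k) + 1 = (2 * m + 1) ^ 2 := by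
  induction m with
  | zero => simp
  | succ m ih =>
    rw [sum_eq_sum_Ico_succ_bot (by omega), show 2 * (m + 1) + 1 = 2 * m + 2 + 1 from by ring,
      sum_Ico_succ_top (by omega), ← sum_Ico_add' (fun k => min k (2 * m + 2 + 1 - k)) 1 (2 * m + 1) 1,
      sum_congr rfl (g := fun k => min k (2 * m + 1 - k) + 1) fun k hk => by
        rw [mem_Ico] at hk; omega,
      sum_add_distrib, sum_const, Nat.card_Ico, smul_eq_mul, mul_one,
      show (2 * m + 2 + 1) ^ 2 = (2 * m + 1) ^ 2 + 8 * m + 8 by ring,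
      min_eq_left (show 1 ≤ 2 * m + 2 + 1 - 1 by omega),
      min_eq_right (show 2 * m + 2 + 1 - (2 * m + 2) ≤ 2 * m + 2 by omega)]
    omega

/-- `∏ (ζ^k)^4 = 1`, `∏ (1 + ζ^k) = 1` and `∏ (1 - ζ^k) = p`. -/
theorem prod_roots {K : Type*} [Field K] {ζ : K} (hp : p.Prime) (hp2 : p ≠ 2)
    (hζ : IsPrimitiveRoot ζ p) :
    ∏ k ∈ Ico 1 p, (ζ ^ k) ^ 4 = 1 ∧
      ∏ k ∈ Ico 1 p, (1 - ζ ^ k) = p ∧ ((p : K) ≠ 0 → ∏ k ∈ Ico 1 p, (1 + ζ ^ k) = 1) := by
  have hsub : ∏ k ∈ Ico 1 p, (1 - ζ ^ k) = p := by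
    obtain ⟨n, rfl⟩ := Nat.exists_eq_succ_of_ne_zero hp.ne_zero
    rw [prod_Ico_eq_prod_range, Nat.succ_sub_one]
    simpa [add_comm 1] using hζ.prod_one_sub_pow_eq_order
  refine ⟨?_, hsub, fun hpK => ?_⟩
  · have h : (∏ k ∈ Ico 1 p, ζ ^ k) * ∏ k ∈ Ico 1 p, ζ ^ (p - k) = 1 := by
      rw [← prod_mul_distrib]
      refine prod_eq_one fun k hk => ?_
      rw [← pow_add, Nat.add_sub_cancel' (mem_Ico.mp hk).2.le, hζ.pow_eq_one]
    have h' : ∏ k ∈ Ico 1 p, ζ ^ (p - k) = ∏ k ∈ Ico 1 p, ζ ^ k := by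
      refine prod_nbij' (fun k => p - k) (fun k => p - k) ?_ ?_ ?_ ?_ fun _ _ => rfl <;>
        · intro k hk
          simp only [mem_Ico] at hk ⊢
          omega
    rw [h', ← sq] at h
    rw [prod_pow, show (4 : ℕ) = 2 * 2 from rfl, pow_mul, h, one_pow]
  · have h2 : ¬ (p : ℤ) ∣ 2 := fun h => by
      have h' : p ∣ 2 := by exact_mod_cast h
      exact hp2 ((Nat.prime_dvd_prime_iff_eq hp Nat.prime_two).mp h')
    have h : (∏ k ∈ Ico 1 p, (1 - ζ ^ k)) * ∏ k ∈ Ico 1 p, (1 + ζ ^ k)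
        = ∏ k ∈ Ico 1 p, (1 - ζ ^ k) := by
      rw [← prod_mul_distrib]
      conv_rhs => rw [← prod_resMul hp h2 (fun k => 1 - ζ ^ k)]
      refine prod_congr rfl fun k _ => ?_
      obtain ⟨n, hn⟩ := exists_eq_resMul_add hp.ne_zero (2 : ℤ) k
      have hz0 : ζ ≠ 0 := hζ.ne_zero hp.ne_zero
      have : ζ ^ resMul p 2 k = ζ ^ (2 * k) := by
        rw [← zpow_natCast ζ (2 * k), ← zpow_natCast ζ (resMul p 2 k),
          show ((2 * k : ℕ) : ℤ) = resMul p 2 k + (p : ℤ) * n by push_cast; linarith,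
          zpow_add₀ hz0, zpow_mul]
        simp only [zpow_natCast, hζ.pow_eq_one, one_zpow, mul_one]
      rw [this]
      ring
    rw [hsub] at h
    exact mul_left_cancel₀ hpK (h.trans (mul_one _).symm)

end Fermat.Agent.Mazur.Moduli
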